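/-
S31lib / RG (helper4): **rigidity of residually absolutely irreducible representations**.
If `ρ : GaloisRepAdic T` (T a local ring) is residually absolutely irreducible and `τ` satisfies
`tr ρ(τσ) = tr ρ(σ)` for all `σ`, then `ρ(τ) = 1`.
(2×2 Burnside over the algebraic closure of the residue field + Nakayama: the `T`-span of the
image of `ρ` is all of `M₂(T)`; the trace pairing on `M₂(T)` is perfect.)
-/
import Mathlib
import Fermat.Prelude.Def_GaloisRep_Adic
import Fermat.Agent.S31lib.RG.Burnside2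

set_option autoImplicit false
set_option linter.unusedSectionVars false
set_option linter.style.haveILetI false

noncomputable section

namespace Fermat.Agent.S31lib.RG

open Matrix TensorProduct

/-! ### matrices and the trace pairing -/

section TracePairing

variable {R : Type*} [CommRing R]

lemma eq_sum_single (X : Matrix (Fin 2) (Fin 2) R) :
    X = X 0 0 • Matrix.single 0 0 (1 : R) + X 0 1 • Matrix.single 0 1 (1 : R)
      + X 1 0 • Matrix.single 1 0 (1 : R) + X 1 1 • Matrix.single 1 1 (1 : R) := by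
  ext i j
  fin_cases i <;> fin_cases j <;> simp [Matrix.single_apply]

/-- every linear functional on `M₂(R)` is `X ↦ tr (Y X)`. -/
lemma exists_trace_form (f : Matrix (Fin 2) (Fin 2) R →ₗ[R] R) :
    ∃ Y : Matrix (Fin 2) (Fin 2) R, ∀ X, f X = (Y * X).trace := by
  refine ⟨Matrix.of fun j i => f (Matrix.single i j (1 : R)), fun X => ?_⟩
  conv_lhs => rw [eq_sum_single X]
  simp only [map_add, map_smul, smul_eq_mul, Matrix.trace_fin_two, Matrix.mul_apply,
    Fin.sum_univ_two, Matrix.of_apply]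
  ring

/-- the trace pairing is nondegenerate. -/
lemma eq_zero_of_trace_mul_eq_zero {Z : Matrix (Fin 2) (Fin 2) R}
    (h : ∀ X : Matrix (Fin 2) (Fin 2) R, (Z * X).trace = 0) : Z = 0 := by
  ext i j
  have := h (Matrix.single j i (1 : R))
  rw [Matrix.trace_fin_two, Matrix.mul_apply, Matrix.mul_apply, Fin.sum_univ_two,
    Fin.sum_univ_two] at this
  fin_cases i <;> fin_cases j <;> simpa [Matrix.single_apply] using this

/-- a matrix with entries in `I` lies in `I • ⊤`. -/
lemma mem_smul_top_of_entries {I : Ideal R} {X : Matrix (Fin 2) (Fin 2) R}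
    (h : ∀ i j, X i j ∈ I) :
    X ∈ I • (⊤ : Submodule R (Matrix (Fin 2) (Fin 2) R)) := by
  rw [eq_sum_single X]
  refine Submodule.add_mem _ (Submodule.add_mem _ (Submodule.add_mem _ ?_ ?_) ?_) ?_ <;>
    exact Submodule.smul_mem_smul (h _ _) Submodule.mem_top

end TracePairing

/-! ### Burnside over an arbitrary field, from absolute irreducibility -/

section Burnside

variable {k : Type*} [Field k] {G : Type*} [Monoid G]

theorem span_eq_top_of_absIrr (M : G →* Matrix (Fin 2) (Fin 2) k)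
    (K : Type*) [Field K] [IsAlgClosed K] [Algebra k K]
    (hirr : ∀ U : Submodule K (Fin 2 → K),
      (∀ σ : G, ∀ x ∈ U, ((M σ).map (algebraMap k K)) *ᵥ x ∈ U) → U = ⊥ ∨ U = ⊤) :
    Submodule.span k (Set.range M) = ⊤ := by
  by_contra hne
  obtain ⟨f, hf0, hfle⟩ := Submodule.exists_le_ker_of_lt_top _ (lt_top_iff_ne_top.mpr hne)
  obtain ⟨Y, hY⟩ := exists_trace_form f
  have hY0 : Y ≠ 0 := by
    rintro rfl
    apply hf0
    ext X
    rw [hY X, Matrix.zero_mul, Matrix.trace_zero, LinearMap.zero_apply]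
  have horthk : ∀ σ : G, (Y * M σ).trace = 0 := by
    intro σ
    rw [← hY]
    exact hfle (Submodule.subset_span ⟨σ, rfl⟩)
  -- pass to `K`
  let φ : Matrix (Fin 2) (Fin 2) k →+* Matrix (Fin 2) (Fin 2) K := (algebraMap k K).mapMatrix
  have hφ : ∀ X, φ X = X.map (algebraMap k K) := fun _ => rfl
  have hY0K : φ Y ≠ 0 := by
    intro h0
    apply hY0
    have hinj : Function.Injective φ := by
      intro A B hAB
      exact Matrix.map_injective (algebraMap k K).injective hAB
    exact hinj (by rw [h0, map_zero])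
  let 𝒮 : Submonoid (Matrix (Fin 2) (Fin 2) K) :=
    MonoidHom.mrange ((φ : Matrix (Fin 2) (Fin 2) k →* Matrix (Fin 2) (Fin 2) K).comp M)
  have horth : ∀ s ∈ 𝒮, (φ Y * s).trace = 0 := by
    rintro _ ⟨σ, rfl⟩
    show (φ Y * φ (M σ)).trace = 0
    rw [← map_mul, hφ, ← AddMonoidHom.map_trace (algebraMap k K), horthk σ, map_zero]
  obtain ⟨U, hU0, hU1, hUs⟩ := exists_stable_of_trace_orth 𝒮 hY0K horth
  rcases hirr U (fun σ x hx => hUs _ ⟨σ, rfl⟩ x hx) with h | h
  · exact hU0 h
  · exact hU1 h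

end Burnside

/-! ### The matrices of an adic representation and its residual representation -/

section Residual

open IsLocalRing

variable {T : Type} [CommRing T] [IsLocalRing T] (ρ : GaloisRepAdic T)
  (b : Module.Basis (Fin 2) T ρ.V)

/-- the matrices of `ρ` in the basis `b`. -/
def matOf : (AlgebraicClosure ℚ ≃ₐ[ℚ] AlgebraicClosure ℚ) →* Matrix (Fin 2) (Fin 2) T :=
  ((LinearMap.toMatrixAlgEquiv b : Module.End T ρ.V ≃ₐ[T] Matrix (Fin 2) (Fin 2) T) :
    Module.End T ρ.V →* Matrix (Fin 2) (Fin 2) T).comp ρ.ρ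

lemma matOf_apply (σ : AlgebraicClosure ℚ ≃ₐ[ℚ] AlgebraicClosure ℚ) :
    matOf ρ b σ = LinearMap.toMatrix b b (ρ.ρ σ) := rfl

/-- the residual matrices. -/
def matRes : (AlgebraicClosure ℚ ≃ₐ[ℚ] AlgebraicClosure ℚ) →* Matrix (Fin 2) (Fin 2) (ResidueField T) :=
  ((algebraMap T (ResidueField T)).mapMatrix :
    Matrix (Fin 2) (Fin 2) T →+* Matrix (Fin 2) (Fin 2) (ResidueField T)).toMonoidHom.comp
      (matOf ρ b)

lemma matRes_apply (σ : AlgebraicClosure ℚ ≃ₐ[ℚ] AlgebraicClosure ℚ) :
    matRes ρ b σ = (matOf ρ b σ).map (algebraMap T (ResidueField T)) := rfl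

/-- absolute irreducibility of the residual representation, in matrix form. -/
theorem absIrr_matRes (habs : ρ.residual.IsAbsolutelyIrreducible)
    (U : Submodule (AlgebraicClosure (ResidueField T)) (Fin 2 → AlgebraicClosure (ResidueField T)))
    (hU : ∀ σ : AlgebraicClosure ℚ ≃ₐ[ℚ] AlgebraicClosure ℚ, ∀ x ∈ U,
      ((matRes ρ b σ).map (algebraMap (ResidueField T) (AlgebraicClosure (ResidueField T)))) *ᵥ x
        ∈ U) :
    U = ⊥ ∨ U = ⊤ := by
  classical
  set k := ResidueField T
  set K := AlgebraicClosure k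
  let b₁ : Module.Basis (Fin 2) k (k ⊗[T] ρ.V) := Algebra.TensorProduct.basis k b
  let b₂ : Module.Basis (Fin 2) K (K ⊗[k] (k ⊗[T] ρ.V)) := Algebra.TensorProduct.basis K b₁
  let e : (K ⊗[k] (k ⊗[T] ρ.V)) ≃ₗ[K] (Fin 2 → K) := b₂.equivFun
  have hmat : ∀ σ, LinearMap.toMatrix b₂ b₂ (((ρ.ρ σ).baseChange k).baseChange K) =
      (matRes ρ b σ).map (algebraMap k K) := by
    intro σ
    rw [LinearMap.toMatrix_baseChange, LinearMap.toMatrix_baseChange]
    rfl
  let W : Submodule K (ρ.residual.baseChange K).V := U.comap e.toLinearMap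
  have hmemW : ∀ x : K ⊗[k] (k ⊗[T] ρ.V), x ∈ W ↔ e x ∈ U := fun _ => Iff.rfl
  have hstab : ∀ σ, ∀ x ∈ W, (ρ.residual.baseChange K).ρ σ x ∈ W := by
    intro σ x hx
    have h1 : e ((((ρ.ρ σ).baseChange k).baseChange K) x) =
        ((matRes ρ b σ).map (algebraMap k K)) *ᵥ (e x) := by
      rw [← hmat σ]
      exact (LinearMap.toMatrix_mulVec_repr b₂ b₂ _ x).symm
    refine (hmemW _).mpr ?_
    show e ((((ρ.ρ σ).baseChange k).baseChange K) x) ∈ U
    rw [h1]
    exact hU σ _ ((hmemW x).mp hx)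
  rcases habs W hstab with h | h
  · left
    refine (Submodule.eq_bot_iff _).mpr fun u hu => ?_
    have h1 : e.symm u ∈ W := (hmemW _).mpr (by rw [LinearEquiv.apply_symm_apply]; exact hu)
    have h2 : e.symm u = 0 := (Submodule.mem_bot K).mp (h.le h1)
    rw [← e.apply_symm_apply u, h2, map_zero]
  · right
    refine (Submodule.eq_top_iff').mpr fun u => ?_
    have h1 : e.symm u ∈ W := h.ge Submodule.mem_top
    have h2 := (hmemW _).mp h1
    rwa [LinearEquiv.apply_symm_apply] at h2

/-- **Burnside + Nakayama**: the `T`-span of the image is everything. -/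
theorem span_matOf_eq_top (habs : ρ.residual.IsAbsolutelyIrreducible) :
    Submodule.span T (Set.range (matOf ρ b)) = ⊤ := by
  classical
  set k := ResidueField T
  have hk : Submodule.span k (Set.range (matRes ρ b)) = ⊤ :=
    span_eq_top_of_absIrr (matRes ρ b) (AlgebraicClosure k) (absIrr_matRes ρ b habs)
  -- lifting elements of the residual span
  have hlift : ∀ Xb ∈ Submodule.span k (Set.range (matRes ρ b)),
      ∃ Z ∈ Submodule.span T (Set.range (matOf ρ b)), Z.map (algebraMap T k) = Xb := by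
    intro Xb hXb
    induction hXb using Submodule.span_induction with
    | mem X hX =>
      obtain ⟨σ, rfl⟩ := hX
      exact ⟨matOf ρ b σ, Submodule.subset_span ⟨σ, rfl⟩, rfl⟩
    | zero => exact ⟨0, Submodule.zero_mem _, by ext i j; simp⟩
    | add X X' _ _ hX hX' =>
      obtain ⟨Z, hZ, rfl⟩ := hX
      obtain ⟨Z', hZ', rfl⟩ := hX'
      exact ⟨Z + Z', Submodule.add_mem _ hZ hZ', by ext i j; simp⟩
    | smul c X _ hX =>
      obtain ⟨Z, hZ, rfl⟩ := hX
      obtain ⟨c', rfl⟩ := IsLocalRing.residue_surjective c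
      refine ⟨c' • Z, Submodule.smul_mem _ _ hZ, ?_⟩
      ext i j
      simp only [Matrix.map_apply, Matrix.smul_apply, smul_eq_mul, map_mul]
      rfl
  refine top_le_iff.mp ?_
  refine Submodule.le_of_le_smul_of_le_jacobson_bot (I := maximalIdeal T)
    (Module.Finite.fg_top) (le_of_eq (IsLocalRing.jacobson_eq_maximalIdeal ⊥ bot_ne_top).symm) ?_
  intro X _
  obtain ⟨Z, hZ, hZX⟩ := hlift (X.map (algebraMap T k)) (by rw [hk]; exact Submodule.mem_top)
  have hXZ : X = Z + (X - Z) := by abel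
  rw [hXZ]
  refine Submodule.add_mem_sup hZ (mem_smul_top_of_entries fun i j => ?_)
  have := congrFun (congrFun hZX i) j
  simp only [Matrix.map_apply] at this
  rw [Matrix.sub_apply, ← IsLocalRing.residue_eq_zero_iff, map_sub, sub_eq_zero]
  exact this.symm

/-- **Rigidity.** -/
theorem eq_one_of_trace_eq (habs : ρ.residual.IsAbsolutelyIrreducible)
    (τ : AlgebraicClosure ℚ ≃ₐ[ℚ] AlgebraicClosure ℚ)
    (h : ∀ σ : AlgebraicClosure ℚ ≃ₐ[ℚ] AlgebraicClosure ℚ,
      LinearMap.trace T ρ.V (ρ.ρ (τ * σ)) = LinearMap.trace T ρ.V (ρ.ρ σ)) :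
    ρ.ρ τ = 1 := by
  classical
  let b : Module.Basis (Fin 2) T ρ.V := Module.finBasisOfFinrankEq T ρ.V ρ.finrank_eq
  have hspan := span_matOf_eq_top ρ b habs
  have hZ : matOf ρ b τ - 1 = 0 := by
    refine eq_zero_of_trace_mul_eq_zero fun X => ?_
    have hX : X ∈ Submodule.span T (Set.range (matOf ρ b)) := by rw [hspan]; exact Submodule.mem_top
    induction hX using Submodule.span_induction with
    | mem X hX =>
      obtain ⟨σ, rfl⟩ := hX
      rw [Matrix.sub_mul, Matrix.one_mul, Matrix.trace_sub, ← map_mul, matOf_apply, matOf_apply,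
        ← LinearMap.trace_eq_matrix_trace T b, ← LinearMap.trace_eq_matrix_trace T b, h σ, sub_self]
    | zero => rw [Matrix.mul_zero, Matrix.trace_zero]
    | add X X' _ _ hX hX' => rw [Matrix.mul_add, Matrix.trace_add, hX, hX', add_zero]
    | smul c X _ hX => rw [Matrix.mul_smul, Matrix.trace_smul, hX, smul_zero]
  have h1 : LinearMap.toMatrix b b (ρ.ρ τ) = LinearMap.toMatrix b b 1 := by
    rw [← matOf_apply, sub_eq_zero.mp hZ]
    exact (LinearMap.toMatrix_one b).symm
  exact (LinearMap.toMatrix b b).injective h1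

end Residual

end Fermat.Agent.S31lib.RG
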