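/-
S31lib (helper4): Burnside's theorem for 2×2 matrices, in the "trace-orthogonal" form.
Over an algebraically closed field `K`, if a submonoid `𝒮` of `M₂(K)` is trace-orthogonal to a
nonzero matrix `Y` (i.e. `tr (Y s) = 0` for all `s ∈ 𝒮`), then `𝒮` has a proper nonzero stable
subspace of `K²`.
-/
import Mathlib

set_option autoImplicit false
set_option linter.unusedSectionVars false

noncomputable section

namespace Fermat.Agent.S31lib.RG

open Matrix Polynomial

section TwoByTwo

variable {R : Type*} [CommRing R]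

/-- the 2×2 identity `Y Z Y = tr(Y Z) Y - det(Y) adj(Z)`. -/
theorem mul_mul_self_eq (Y Z : Matrix (Fin 2) (Fin 2) R) :
    Y * Z * Y = (Y * Z).trace • Y - Y.det • Z.adjugate := by
  ext i j
  fin_cases i <;> fin_cases j <;>
    simp [Matrix.mul_apply, Fin.sum_univ_two, Matrix.trace_fin_two, Matrix.det_fin_two,
      Matrix.adjugate_fin_two] <;> ring

/-- a matrix is scalar. -/
def IsScalarMat (s : Matrix (Fin 2) (Fin 2) R) : Prop :=
  s 0 1 = 0 ∧ s 1 0 = 0 ∧ s 0 0 = s 1 1

lemma IsScalarMat.eq_smul_one {s : Matrix (Fin 2) (Fin 2) R} (h : IsScalarMat s) :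
    s = s 0 0 • (1 : Matrix (Fin 2) (Fin 2) R) := by
  obtain ⟨h1, h2, h3⟩ := h
  ext i j
  fin_cases i <;> fin_cases j <;> simp [h1, h2, h3]

end TwoByTwo

section AlgClosed

variable {K : Type*} [Field K] [IsAlgClosed K]

/-- a non-scalar matrix over an algebraically closed field can be shifted to a nonzero singular
matrix. -/
theorem exists_sub_smul_det_eq_zero {s : Matrix (Fin 2) (Fin 2) K} (hs : ¬ IsScalarMat s) :
    ∃ c : K, s - c • (1 : Matrix (Fin 2) (Fin 2) K) ≠ 0 ∧
      (s - c • (1 : Matrix (Fin 2) (Fin 2) K)).det = 0 := by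
  have hdeg : s.charpoly.degree ≠ 0 := by
    rw [Matrix.charpoly_degree_eq_dim, Fintype.card_fin]
    norm_num
  obtain ⟨c, hc⟩ := IsAlgClosed.exists_root s.charpoly hdeg
  refine ⟨c, ?_, ?_⟩
  · intro h0
    apply hs
    have : s = c • (1 : Matrix (Fin 2) (Fin 2) K) := sub_eq_zero.mp h0
    rw [this]
    refine ⟨by simp, by simp, by simp⟩
  · rw [Polynomial.IsRoot.def, Matrix.eval_charpoly] at hc
    have e : s - c • (1 : Matrix (Fin 2) (Fin 2) K) = -(Matrix.scalar (Fin 2) c - s) := by
      rw [neg_sub]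
      congr 1
      ext i j
      simp [Matrix.scalar_apply, Matrix.one_apply, Matrix.diagonal_apply]
    rw [e, Matrix.det_neg, hc, mul_zero]

/-- **Burnside, trace-orthogonal form.** -/
theorem exists_stable_of_trace_orth (𝒮 : Submonoid (Matrix (Fin 2) (Fin 2) K))
    {Y : Matrix (Fin 2) (Fin 2) K} (hY : Y ≠ 0) (horth : ∀ s ∈ 𝒮, (Y * s).trace = 0) :
    ∃ U : Submodule K (Fin 2 → K), U ≠ ⊥ ∧ U ≠ ⊤ ∧ ∀ s ∈ 𝒮, ∀ x ∈ U, s *ᵥ x ∈ U := by
  classical
  by_cases hsc : ∀ s ∈ 𝒮, IsScalarMat s
  · -- everything is scalar: any line is stable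
    refine ⟨Submodule.span K {Pi.single 0 1}, ?_, ?_, ?_⟩
    · intro h
      have : (Pi.single 0 1 : Fin 2 → K) ∈ (⊥ : Submodule K (Fin 2 → K)) := by
        rw [← h]; exact Submodule.mem_span_singleton_self _
      rw [Submodule.mem_bot] at this
      have h0 := congrFun this 0
      simp at h0
    · intro h
      have : (Pi.single 1 1 : Fin 2 → K) ∈ Submodule.span K {(Pi.single 0 1 : Fin 2 → K)} := by
        rw [h]; exact Submodule.mem_top
      obtain ⟨a, ha⟩ := Submodule.mem_span_singleton.mp this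
      have h1 := congrFun ha 1
      simp at h1
    · intro s hs x hx
      rw [(hsc s hs).eq_smul_one, Matrix.smul_mulVec, Matrix.one_mulVec]
      exact Submodule.smul_mem _ _ hx
  · -- a singular nonzero `Y'` trace-orthogonal to `𝒮`
    push Not at hsc
    obtain ⟨s₀, hs₀, hns⟩ := hsc
    obtain ⟨Y', hY'0, hY'det, hY'orth⟩ : ∃ Y' : Matrix (Fin 2) (Fin 2) K, Y' ≠ 0 ∧ Y'.det = 0 ∧
        ∀ s ∈ 𝒮, (Y' * s).trace = 0 := by
      by_cases hdet : Y.det = 0
      · exact ⟨Y, hY, hdet, horth⟩
      · obtain ⟨c, hc0, hcdet⟩ := exists_sub_smul_det_eq_zero hns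
        refine ⟨(s₀ - c • (1 : Matrix (Fin 2) (Fin 2) K)) * Y, ?_, ?_, ?_⟩
        · intro h0
          apply hc0
          have hunit : IsUnit Y.det := isUnit_iff_ne_zero.mpr hdet
          have := congrArg (· * Y⁻¹) h0
          simp only [Matrix.mul_assoc, Matrix.mul_nonsing_inv _ hunit, Matrix.mul_one,
            Matrix.zero_mul] at this
          exact this
        · rw [Matrix.det_mul, hcdet, zero_mul]
        · intro s hs
          have h1 : (s₀ - c • (1 : Matrix (Fin 2) (Fin 2) K)) * Y * s =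
              s₀ * (Y * s) - c • (Y * s) := by
            rw [Matrix.sub_mul, Matrix.sub_mul, Matrix.smul_mul, Matrix.smul_mul, Matrix.one_mul,
              Matrix.mul_assoc]
          rw [h1, Matrix.trace_sub, Matrix.trace_smul, horth s hs, smul_zero, sub_zero,
            Matrix.trace_mul_comm, Matrix.mul_assoc]
          exact horth _ (𝒮.mul_mem hs hs₀)
    -- `Y' s Y' = 0` for all `s ∈ 𝒮`
    have hzero : ∀ s ∈ 𝒮, Y' * s * Y' = 0 := by
      intro s hs
      rw [mul_mul_self_eq, hY'orth s hs, hY'det, zero_smul, zero_smul, sub_zero]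
    -- the stable subspace
    refine ⟨Submodule.span K {x | ∃ s ∈ 𝒮, ∃ w : Fin 2 → K, x = s *ᵥ (Y' *ᵥ w)}, ?_, ?_, ?_⟩
    · intro hbot
      apply hY'0
      ext i j
      have hmem : Y' *ᵥ (Pi.single j 1) ∈
          Submodule.span K {x | ∃ s ∈ 𝒮, ∃ w : Fin 2 → K, x = s *ᵥ (Y' *ᵥ w)} :=
        Submodule.subset_span ⟨1, 𝒮.one_mem, Pi.single j 1, by rw [Matrix.one_mulVec]⟩
      rw [hbot, Submodule.mem_bot] at hmem
      have := congrFun hmem i
      simpa using this
    · intro htop
      apply hY'0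
      have hker : Submodule.span K {x | ∃ s ∈ 𝒮, ∃ w : Fin 2 → K, x = s *ᵥ (Y' *ᵥ w)} ≤
          LinearMap.ker Y'.mulVecLin := by
        rw [Submodule.span_le]
        rintro _ ⟨s, hs, w, rfl⟩
        show Y'.mulVecLin (s *ᵥ (Y' *ᵥ w)) = 0
        rw [Matrix.mulVecLin_apply, Matrix.mulVec_mulVec, Matrix.mulVec_mulVec,
          hzero s hs, Matrix.zero_mulVec]
      rw [htop, top_le_iff, LinearMap.ker_eq_top] at hker
      ext i j
      have := congrFun (congrArg (fun f => f (Pi.single j 1)) hker) i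
      simpa using this
    · intro s hs x hx
      induction hx using Submodule.span_induction with
      | mem x hx =>
        obtain ⟨s', hs', w, rfl⟩ := hx
        refine Submodule.subset_span ⟨s * s', 𝒮.mul_mem hs hs', w, ?_⟩
        rw [Matrix.mulVec_mulVec]
      | zero => rw [Matrix.mulVec_zero]; exact Submodule.zero_mem _
      | add x y _ _ hx hy => rw [Matrix.mulVec_add]; exact Submodule.add_mem _ hx hy
      | smul a x _ hx => rw [Matrix.mulVec_smul]; exact Submodule.smul_mem _ _ hx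

end AlgClosed

end Fermat.Agent.S31lib.RG
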